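import Fermat.Agent.S21.CuspDual.Inj

/-! # S21 module CUSPDUAL, part 4: `Δ · Φ⁻¹ → 0` at `i∞`. -/

set_option autoImplicit false

open UpperHalfPlane ModularForm CongruenceSubgroup Filter Topology
open scoped MatrixGroups ModularForm Manifold Real

namespace Fermat.Agent.S21.CuspDual

variable {N : ℕ} [NeZero N] (B : FreeBasis (Gamma0 N))

/-- the `j`-th column of `Φ` as a family -/
noncomputable def col (j : X (Gamma0 N)) : X (Gamma0 N) → ℍ → ℂ :=
  fun x => vec (Gamma0 N) (B.k j) (B.F j) x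

theorem isFam_col (j : X (Gamma0 N)) : IsFam N (col B j) where
  mdiff x := vec_mdiff (mem_MF_iff.mp (B.mem j)).1 _ x
  bdd x := vec_isBoundedAtImInfty (B.mem j) x
  equiv x τ := by
    unfold col
    rw [vec_smul_apply (mem_MF_iff.mp (B.mem j)).2.1, denom_T, one_zpow, one_mul]

omit [NeZero N] in
theorem isFam_comb {ι : Type} (s : Finset ι) (c : ι → ℂ) (φ : ι → X (Gamma0 N) → ℍ → ℂ)
    (hφ : ∀ j, IsFam N (φ j)) : IsFam N (fun x τ => ∑ j ∈ s, c j * φ j x τ) where
  mdiff x := by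
    have h : (fun τ => ∑ j ∈ s, c j * φ j x τ) = ∑ j ∈ s, c j • φ j x := by
      ext τ
      simp
    rw [h]
    refine MDifferentiable.sum ?_
    intro j _
    exact ((hφ j).mdiff x).const_smul (c j)
  bdd x := by
    unfold IsBoundedAtImInfty BoundedAtFilter
    exact Asymptotics.IsBigO.fun_sum fun j _ => ((hφ j).bdd x).const_mul_left _
  equiv x τ := by
    simp only [(hφ _).equiv]

omit [NeZero N] in
theorem vv_comb {ι : Type} (t : Finset ι) (c : ι → ℂ) (φ : ι → X (Gamma0 N) → ℍ → ℂ)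
    (s : ℕ) (x : X (Gamma0 N)) (τ : ℍ) :
    vv N (fun x τ => ∑ j ∈ t, c j * φ j x τ) s x τ = ∑ j ∈ t, c j * vv N (φ j) s x τ := by
  unfold vv uu
  simp only [Finset.mul_sum]
  rw [Finset.sum_comm]
  refine Finset.sum_congr rfl fun j _ => Finset.sum_congr rfl fun m _ => ?_
  ring

/-- the limits of the normalised Fourier components of the entries of `Φ` -/
noncomputable def Binf : Matrix (Fin N × X (Gamma0 N)) (X (Gamma0 N)) ℂ :=
  Matrix.of fun p j => Classical.choose (vv_tendsto (isFam_col B j) p.1.2 p.2)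

theorem Binf_spec (p : Fin N × X (Gamma0 N)) (j : X (Gamma0 N)) :
    Tendsto (vv N (col B j) p.1 p.2) atImInfty (𝓝 (Binf B p j)) :=
  Classical.choose_spec (vv_tendsto (isFam_col B j) p.1.2 p.2)

theorem Binf_injective (c : X (Gamma0 N) → ℂ) (hc : (Binf B).mulVec c = 0) : c = 0 := by
  refine c_eq_zero B c fun x => ?_
  have hfam := isFam_comb Finset.univ c (col B) (isFam_col B)
  refine isBigO_absq_of_vv_zero hfam x fun s hs => ?_
  have h1 : vv N (fun x τ => ∑ j, c j * col B j x τ) s x =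
      fun τ => ∑ j, c j * vv N (col B j) s x τ := by
    ext τ
    exact vv_comb _ _ _ _ _ _
  rw [h1]
  have h2 : Tendsto (fun τ => ∑ j, c j * vv N (col B j) s x τ) atImInfty
      (𝓝 (∑ j, c j * Binf B (⟨s, hs⟩, x) j)) :=
    tendsto_finsetSum _ fun j _ => (Binf_spec B (⟨s, hs⟩, x) j).const_mul _
  have h3 : ∑ j, c j * Binf B (⟨s, hs⟩, x) j = 0 := by
    have := congrFun hc (⟨s, hs⟩, x)
    simp only [Matrix.mulVec, dotProduct, Pi.zero_apply] at this
    rw [← this]
    exact Finset.sum_congr rfl fun j _ => mul_comm _ _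
  rwa [h3] at h2

theorem exists_left_inverse [DecidableEq (X (Gamma0 N))] :
    ∃ C : Matrix (X (Gamma0 N)) (Fin N × X (Gamma0 N)) ℂ, C * Binf B = 1 := by
  have hinj : LinearMap.ker (Matrix.toLin' (Binf B)) = ⊥ := by
    rw [LinearMap.ker_eq_bot']
    intro c hc
    exact Binf_injective B c (by simpa using hc)
  obtain ⟨g, hg⟩ := LinearMap.exists_leftInverse_of_injective _ hinj
  refine ⟨LinearMap.toMatrix' g, ?_⟩
  have h1 : LinearMap.toMatrix' (g ∘ₗ Matrix.toLin' (Binf B)) = 1 := by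
    rw [hg, LinearMap.toMatrix'_id]
  rwa [LinearMap.toMatrix'_comp, LinearMap.toMatrix'_toLin'] at h1

/-- the matrix of translates -/
noncomputable def Phi (τ : ℍ) : Matrix (X (Gamma0 N)) (X (Gamma0 N)) ℂ :=
  Matrix.of fun x j => vec (Gamma0 N) (B.k j) (B.F j) x τ

/-- the matrix of the normalised finite Fourier transform -/
noncomputable def Qt (N : ℕ) [DecidableEq (X (Gamma0 N))] (τ : ℍ) :
    Matrix (Fin N × X (Gamma0 N)) (X (Gamma0 N)) ℂ :=
  Matrix.of fun p y => ei N τ ^ (p.1 : ℕ) * ∑ m ∈ Finset.range N,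
    eta N ^ ((p.1 : ℕ) * m) * (if y = (ModularGroup.T⁻¹) ^ m • p.2 then 1 else 0)

theorem Qt_mul_Phi [DecidableEq (X (Gamma0 N))] (τ : ℍ) (p : Fin N × X (Gamma0 N))
    (j : X (Gamma0 N)) : (Qt N τ * Phi B τ) p j = vv N (col B j) p.1 p.2 τ := by
  rw [Matrix.mul_apply]
  unfold Qt Phi vv uu col
  simp only [Matrix.of_apply]
  simp only [mul_assoc, ← Finset.mul_sum, Finset.sum_mul]
  congr 1
  rw [Finset.sum_comm]
  refine Finset.sum_congr rfl fun m _ => ?_
  rw [← Finset.mul_sum]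
  congr 1
  simp

theorem Qt_mul_Phi_tendsto [DecidableEq (X (Gamma0 N))] :
    Tendsto (fun τ => Qt N τ * Phi B τ) atImInfty (𝓝 (Binf B)) := by
  refine tendsto_pi_nhds.mpr fun p => tendsto_pi_nhds.mpr fun j => ?_
  simp only [Qt_mul_Phi]
  exact Binf_spec B p j

theorem Dl_smul_Qt_tendsto [DecidableEq (X (Gamma0 N))] :
    Tendsto (fun τ => Dl τ • Qt N τ) atImInfty (𝓝 0) := by
  refine tendsto_pi_nhds.mpr fun p => tendsto_pi_nhds.mpr fun y => ?_
  have h1 := (Dl_mul_ei_pow_tendsto N p.1.2).mul_const (∑ m ∈ Finset.range N,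
    eta N ^ ((p.1 : ℕ) * m) * (if y = (ModularGroup.T⁻¹) ^ m • p.2 then (1 : ℂ) else 0))
  rw [zero_mul] at h1
  refine h1.congr fun τ => ?_
  simp [Qt, mul_assoc]

theorem isUnit_Phi [DecidableEq (X (Gamma0 N))] (τ : ℍ) : IsUnit (Phi B τ) :=
  Matrix.linearIndependent_cols_iff_isUnit.mp (B.indep τ)

theorem tendsto_zero_of_mul {α : Type*} {l : Filter α} {n : Type*} [Fintype n] [DecidableEq n]
    (M Y Z : α → Matrix n n ℂ) (hMt : Tendsto M l (𝓝 1)) (hZt : Tendsto Z l (𝓝 0))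
    (hMY : ∀ a, M a * Y a = Z a) : Tendsto Y l (𝓝 0) := by
  have hdet : Tendsto (fun τ => (M τ).det) l (𝓝 1) := by
    have h1 : Continuous fun A : Matrix n n ℂ => A.det := continuous_id.matrix_det
    have h2 := (h1.tendsto 1).comp hMt
    rwa [Matrix.det_one] at h2
  have hadj : Tendsto (fun τ => (M τ).adjugate) l (𝓝 1) := by
    have h1 : Continuous fun A : Matrix n n ℂ => A.adjugate := continuous_id.matrix_adjugate
    have h2 := (h1.tendsto 1).comp hMt
    rwa [Matrix.adjugate_one] at h2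
  have hne : ∀ᶠ τ in l, (M τ).det ≠ 0 := hdet.eventually_ne one_ne_zero
  have hlim : Tendsto (fun τ => ((M τ).det)⁻¹ • ((M τ).adjugate * Z τ)) l (𝓝 0) := by
    have h1 : Tendsto (fun τ => (M τ).adjugate * Z τ) l (𝓝 (1 * 0)) := hadj.mul hZt
    have h2 := (hdet.inv₀ one_ne_zero).smul h1
    simpa using h2
  refine hlim.congr' ?_
  filter_upwards [hne] with τ hτ
  rw [← hMY τ, ← Matrix.mul_assoc, Matrix.adjugate_mul, Matrix.smul_mul, Matrix.one_mul,
    smul_smul, inv_mul_cancel₀ hτ, one_smul]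

theorem tendsto_const_mul {α : Type*} {l : Filter α} {m n : Type*} [Fintype m] [Fintype n]
    (C : Matrix n m ℂ) (A : α → Matrix m n ℂ) (A0 : Matrix m n ℂ) (hA : Tendsto A l (𝓝 A0)) :
    Tendsto (fun a => C * A a) l (𝓝 (C * A0)) := by
  have h1 : Continuous fun A : Matrix m n ℂ => C * A := continuous_const.matrix_mul continuous_id
  exact (h1.tendsto A0).comp hA

theorem Dl_smul_Phi_inv_tendsto [DecidableEq (X (Gamma0 N))] :
    Tendsto (fun τ => Dl τ • (Phi B τ)⁻¹) atImInfty (𝓝 0) := by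
  obtain ⟨C, hC⟩ := exists_left_inverse B
  have hMt := tendsto_const_mul C _ _ (Qt_mul_Phi_tendsto B)
  rw [hC] at hMt
  have hZt := tendsto_const_mul C _ _ (Dl_smul_Qt_tendsto (N := N))
  rw [Matrix.mul_zero] at hZt
  refine tendsto_zero_of_mul _ _ _ hMt hZt fun τ => ?_
  rw [Matrix.mul_smul, Matrix.mul_smul, Matrix.mul_assoc, Matrix.mul_assoc,
    Matrix.mul_nonsing_inv _ ((Matrix.isUnit_iff_isUnit_det _).mp (isUnit_Phi B τ)),
    Matrix.mul_one]

end Fermat.Agent.S21.CuspDual
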