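import Fermat.Agent.S21.LevelOne

/-! # S21 module CUSPDUAL, part 1: periodic holomorphic functions at `i∞`. -/

set_option autoImplicit false

open UpperHalfPlane ModularForm CongruenceSubgroup Filter Topology
open scoped MatrixGroups ModularForm Manifold Real

namespace Fermat.Agent.S21.CuspDual

/-- the comparison function `|q| = exp(-2π im τ)` -/
noncomputable def absq (τ : ℍ) : ℝ := Real.exp (-2 * π * τ.im)

theorem absq_eq : absq = fun τ : ℍ => Real.exp (-2 * π * τ.im) := rfl

theorem periodic_of_T {f : ℍ → ℂ} (hf : ∀ τ : ℍ, f (ModularGroup.T • τ) = f τ) :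
    Function.Periodic (f ∘ ofComplex) (1 : ℝ) := by
  intro w
  by_cases hw : 0 < Complex.im w
  · have h1 : 0 < Complex.im (w + (1 : ℝ)) := by simpa using hw
    simp only [Function.comp_apply, ofComplex_apply_of_im_pos h1, ofComplex_apply_of_im_pos hw]
    rw [← hf ⟨w, hw⟩, modular_T_smul]
    congr 1
    ext
    simp [add_comm]
  · have hw' : Complex.im w ≤ 0 := not_lt.mp hw
    have h1 : Complex.im (w + (1 : ℝ)) ≤ 0 := by simpa using hw'
    simp only [Function.comp_apply, ofComplex_apply_of_im_nonpos h1,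
      ofComplex_apply_of_im_nonpos hw']

theorem absq_tendsto : Tendsto absq atImInfty (𝓝 0) := by
  unfold absq
  refine Real.tendsto_exp_atBot.comp ?_
  have h : Tendsto (fun τ : ℍ => τ.im) atImInfty atTop := tendsto_comap
  have h2 : Tendsto (fun τ : ℍ => (2 * π) * τ.im) atImInfty atTop :=
    h.const_mul_atTop (by positivity)
  have h3 := tendsto_neg_atTop_atBot.comp h2
  refine h3.congr fun τ => ?_
  simp only [Function.comp_apply]
  ring

theorem isBigO_absq_of_zero {f : ℍ → ℂ} (hd : MDiff f)
    (hf : ∀ τ : ℍ, f (ModularGroup.T • τ) = f τ) (h0 : IsZeroAtImInfty f) :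
    f =O[atImInfty] absq := by
  have := h0.exp_decay_atImInfty (h := 1) one_pos (periodic_of_T hf) hd h0.isBoundedAtImInfty
  rw [absq_eq]
  simpa only [div_one] using this

theorem exists_tendsto_of_bdd {f : ℍ → ℂ} (hd : MDiff f)
    (hf : ∀ τ : ℍ, f (ModularGroup.T • τ) = f τ) (hb : IsBoundedAtImInfty f) :
    ∃ l : ℂ, Tendsto f atImInfty (𝓝 l) := by
  refine ⟨valueAtInfty f, ?_⟩
  have h := exp_decay_sub_atImInfty (h := 1) one_pos (periodic_of_T hf) hd hb
  have h2 : (fun τ : ℍ => f τ - valueAtInfty f) =O[atImInfty] absq := by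
    rw [absq_eq]
    simpa only [div_one] using h
  have h3 := h2.trans_tendsto absq_tendsto
  have h4 := h3.add_const (valueAtInfty f)
  simpa using h4

end Fermat.Agent.S21.CuspDual
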