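import Fermat.Agent.S21.CuspDual.Analytic

/-! # S21 module CUSPDUAL, part 2: finite Fourier analysis at `i∞` for families of functions
indexed by `SL(2,ℤ)/Γ₀(N)` which are permuted by `τ ↦ τ + 1`. -/

set_option autoImplicit false

open UpperHalfPlane ModularForm CongruenceSubgroup Filter Topology
open scoped MatrixGroups ModularForm Manifold Real

namespace Fermat.Agent.S21.CuspDual

variable (N : ℕ)

/-- `exp(-2πiτ/N)` -/
noncomputable def ei (τ : ℍ) : ℂ := Complex.exp (-(2 * π * Complex.I * τ / N))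

/-- `exp(-2πi/N)` -/
noncomputable def eta : ℂ := Complex.exp (-(2 * π * Complex.I / N))

theorem ei_ne_zero (τ : ℍ) : ei N τ ≠ 0 := Complex.exp_ne_zero _

theorem ei_T (τ : ℍ) : ei N (ModularGroup.T • τ) = eta N * ei N τ := by
  rw [modular_T_smul, ei, ei, eta, ← Complex.exp_add]
  congr 1
  simp only [coe_vadd, Complex.ofReal_one]
  ring

theorem norm_ei (τ : ℍ) : ‖ei N τ‖ = Real.exp (2 * π * τ.im / N) := by
  rw [ei, Complex.norm_exp]
  congr 1
  simp [Complex.div_natCast_re]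
  ring

theorem one_le_norm_ei (τ : ℍ) : 1 ≤ ‖ei N τ‖ := by
  rw [norm_ei]
  apply Real.one_le_exp
  have := τ.im_pos
  positivity

theorem mdiff_ei : MDiff (ei N) := by
  have h : Differentiable ℂ (fun z : ℂ => Complex.exp (-(2 * π * Complex.I * z / N))) := by
    fun_prop
  exact h.mdifferentiable.comp mdifferentiable_coe

theorem eta_isPrimitiveRoot [NeZero N] : IsPrimitiveRoot (eta N) N := by
  have h := (Complex.isPrimitiveRoot_exp N (NeZero.ne N)).inv
  rwa [← Complex.exp_neg] at h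

theorem eta_pow_N [NeZero N] : eta N ^ N = 1 := (eta_isPrimitiveRoot N).pow_eq_one

theorem sum_eta_pow [NeZero N] {m : ℕ} (hm : m < N) :
    ∑ s ∈ Finset.range N, eta N ^ (s * m) = if m = 0 then (N : ℂ) else 0 := by
  split_ifs with h0
  · subst h0; simp
  · have h1 : eta N ^ m ≠ 1 :=
      (eta_isPrimitiveRoot N).pow_ne_one_of_pos_of_lt h0 hm
    have h2 : (∑ s ∈ Finset.range N, (eta N ^ m) ^ s) * (eta N ^ m - 1) = (eta N ^ m) ^ N - 1 :=
      geom_sum_mul _ _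
    rw [← pow_mul, mul_comm m N, pow_mul, eta_pow_N, one_pow, sub_self] at h2
    have h3 := (mul_eq_zero.mp h2).resolve_right (sub_ne_zero.mpr h1)
    rw [← h3]
    refine Finset.sum_congr rfl fun s _ => ?_
    rw [← pow_mul, mul_comm]

theorem absq_mul_norm_ei_pow [NeZero N] (τ : ℍ) : absq τ * ‖ei N τ‖ ^ N = 1 := by
  have hN : (N : ℝ) ≠ 0 := Nat.cast_ne_zero.mpr (NeZero.ne N)
  rw [norm_ei, absq, ← Real.exp_nat_mul, ← Real.exp_add, ← Real.exp_zero]
  congr 1
  field_simp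
  ring

theorem norm_ei_inv_tendsto [NeZero N] : Tendsto (fun τ : ℍ => ‖ei N τ‖⁻¹) atImInfty (𝓝 0) := by
  have hN : (0 : ℝ) < N := Nat.cast_pos.mpr (NeZero.pos N)
  refine Filter.Tendsto.inv_tendsto_atTop ?_
  have h : Tendsto (fun τ : ℍ => τ.im) atImInfty atTop := tendsto_comap
  have h2 : Tendsto (fun τ : ℍ => (2 * π / N) * τ.im) atImInfty atTop :=
    h.const_mul_atTop (by positivity)
  have h3 := Real.tendsto_exp_atTop.comp h2
  refine h3.congr fun τ => ?_
  rw [norm_ei]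
  simp only [Function.comp_apply]
  congr 1
  ring

theorem absq_mul_norm_ei_pow_le [NeZero N] {s : ℕ} (hs : s < N) (τ : ℍ) :
    absq τ * ‖ei N τ‖ ^ s ≤ ‖ei N τ‖⁻¹ := by
  have h1 := one_le_norm_ei N τ
  have h0 : 0 < ‖ei N τ‖ := lt_of_lt_of_le one_pos h1
  have h2 := absq_mul_norm_ei_pow N τ
  have h3 : 0 < absq τ := Real.exp_pos _
  rw [inv_eq_one_div, le_div_iff₀ h0, ← h2, mul_assoc, ← pow_succ]
  exact mul_le_mul_of_nonneg_left (pow_le_pow_right₀ h1 hs) h3.le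

theorem Dl_mul_ei_pow_tendsto [NeZero N] {s : ℕ} (hs : s < N) :
    Tendsto (fun τ : ℍ => Dl τ * ei N τ ^ s) atImInfty (𝓝 0) := by
  have h1 : (fun τ : ℍ => Dl τ * ei N τ ^ s) =O[atImInfty]
      (fun τ : ℍ => absq τ * ‖ei N τ ^ s‖) :=
    Dl_isBigO_exp.mul (Asymptotics.isBigO_refl _ _).norm_right
  refine h1.trans_tendsto ?_
  refine squeeze_zero (fun τ => ?_) (fun τ => ?_) (norm_ei_inv_tendsto N)
  · exact mul_nonneg (Real.exp_pos _).le (norm_nonneg _)
  · rw [norm_pow]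
    exact absq_mul_norm_ei_pow_le N hs τ

theorem denom_T (τ : ℍ) : denom (ModularGroup.T : SL(2, ℤ)) τ = 1 := by
  simp [denom, ModularGroup.coe_T]

theorem Dl_T (τ : ℍ) : Dl (ModularGroup.T • τ) = Dl τ := by
  have h := congrFun ModularForm.discriminant_T_invariant τ
  rw [SL_slash_apply, denom_T, one_zpow, mul_one] at h
  exact h

theorem T_inv_pow_smul (x : X (Gamma0 N)) : (ModularGroup.T⁻¹) ^ N • x = x := by
  induction x using QuotientGroup.induction_on with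
  | H h =>
    rw [MulAction.Quotient.smul_mk]
    rw [QuotientGroup.eq]
    have h1 := conj_T_pow_mem_Gamma0 N h⁻¹
    rw [inv_inv] at h1
    have h2 : (ModularGroup.T⁻¹ ^ N • h)⁻¹ * h = h⁻¹ * ModularGroup.T ^ N * h := by
      rw [smul_eq_mul, mul_inv_rev, inv_pow, inv_inv]
    rw [h2]
    exact h1

/-- families of holomorphic functions, bounded at `i∞`, indexed by the cosets and
permuted by `τ ↦ τ + 1` -/
structure IsFam (φ : X (Gamma0 N) → ℍ → ℂ) : Prop where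
  mdiff : ∀ x, MDiff (φ x)
  bdd : ∀ x, IsBoundedAtImInfty (φ x)
  equiv : ∀ x τ, φ x (ModularGroup.T • τ) = φ (ModularGroup.T⁻¹ • x) τ

/-- the `s`-th Fourier component (times `N`) -/
noncomputable def uu (φ : X (Gamma0 N) → ℍ → ℂ) (s : ℕ) (x : X (Gamma0 N)) (τ : ℍ) : ℂ :=
  ∑ m ∈ Finset.range N, eta N ^ (s * m) * φ ((ModularGroup.T⁻¹) ^ m • x) τ

/-- the `s`-th Fourier component (times `N`), made `1`-periodic -/
noncomputable def vv (φ : X (Gamma0 N) → ℍ → ℂ) (s : ℕ) (x : X (Gamma0 N)) (τ : ℍ) : ℂ :=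
  ei N τ ^ s * uu N φ s x τ

variable {N}
variable {φ : X (Gamma0 N) → ℍ → ℂ}

theorem vv_T [NeZero N] (hφ : IsFam N φ) (s : ℕ) (x : X (Gamma0 N)) (τ : ℍ) :
    vv N φ s x (ModularGroup.T • τ) = vv N φ s x τ := by
  unfold vv uu
  rw [ei_T, mul_pow, mul_assoc (eta N ^ s), mul_left_comm (eta N ^ s)]
  congr 1
  rw [Finset.mul_sum]
  set a : ℕ → ℂ := fun m => eta N ^ (s * m) * φ ((ModularGroup.T⁻¹) ^ m • x) τ with ha
  have h1 : ∀ m, eta N ^ s * (eta N ^ (s * m) * φ ((ModularGroup.T⁻¹) ^ m • x)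
      (ModularGroup.T • τ)) = a (m + 1) := by
    intro m
    rw [ha]
    simp only
    rw [hφ.equiv, ← mul_assoc, ← pow_add, ← mul_smul, ← pow_succ']
    congr 2
    ring
  simp_rw [h1]
  have h2 : a N = a 0 := by
    rw [ha]
    simp only
    rw [T_inv_pow_smul, mul_comm s N, pow_mul, eta_pow_N]
    simp
  have h3 := Finset.sum_range_succ a N
  have h4 := Finset.sum_range_succ' a N
  rw [h3, h2] at h4
  exact (add_right_cancel h4).symm

theorem uu_mdiff (hφ : IsFam N φ) (s : ℕ) (x : X (Gamma0 N)) : MDiff (uu N φ s x) := by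
  have h : uu N φ s x = ∑ m ∈ Finset.range N,
      (eta N ^ (s * m)) • φ ((ModularGroup.T⁻¹) ^ m • x) := by
    ext τ
    simp [uu]
  rw [h]
  exact MDifferentiable.sum fun m _ => (hφ.mdiff _).const_smul _

theorem vv_mdiff (hφ : IsFam N φ) (s : ℕ) (x : X (Gamma0 N)) : MDiff (vv N φ s x) := by
  have h : vv N φ s x = (ei N) ^ s * uu N φ s x := by
    ext τ
    simp [vv]
  rw [h]
  exact ((mdiff_ei N).pow s).mul (uu_mdiff hφ s x)

theorem uu_bdd (hφ : IsFam N φ) (s : ℕ) (x : X (Gamma0 N)) :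
    IsBoundedAtImInfty (uu N φ s x) := by
  have h : uu N φ s x = ∑ m ∈ Finset.range N,
      (eta N ^ (s * m)) • φ ((ModularGroup.T⁻¹) ^ m • x) := by
    ext τ
    simp [uu]
  rw [h]
  unfold IsBoundedAtImInfty BoundedAtFilter
  have := Asymptotics.IsBigO.sum (s := Finset.range N) (l := atImInfty)
    (A := fun m => (eta N ^ (s * m)) • φ ((ModularGroup.T⁻¹) ^ m • x)) (g := (1 : ℍ → ℝ))
    (fun m _ => (hφ.bdd _).const_smul_left _)
  convert this using 1

theorem Dl_mul_vv_zero [NeZero N] (hφ : IsFam N φ) {s : ℕ} (hs : s < N) (x : X (Gamma0 N)) :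
    IsZeroAtImInfty (fun τ => Dl τ * vv N φ s x τ) := by
  have h1 : (fun τ => Dl τ * vv N φ s x τ) = fun τ => (Dl τ * ei N τ ^ s) * uu N φ s x τ := by
    ext τ
    simp [vv, mul_assoc]
  rw [h1]
  exact ZeroAtFilter.mul_boundedAtFilter (Dl_mul_ei_pow_tendsto N hs) (uu_bdd hφ s x)

theorem mdiff_Dl : MDiff Dl := (mem_CF_iff.mp Dl_mem).1

theorem vv_bdd [NeZero N] (hφ : IsFam N φ) {s : ℕ} (hs : s < N) (x : X (Gamma0 N)) :
    IsBoundedAtImInfty (vv N φ s x) := by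
  have h1 : (fun τ => Dl τ * vv N φ s x τ) =O[atImInfty] absq := by
    refine isBigO_absq_of_zero (mdiff_Dl.mul (vv_mdiff hφ s x)) (fun τ => ?_)
      (Dl_mul_vv_zero hφ hs x)
    rw [Dl_T, vv_T hφ]
  have h2 := h1.trans exp_isBigO_Dl
  obtain ⟨c, hc⟩ := h2.bound
  unfold IsBoundedAtImInfty BoundedAtFilter
  refine Asymptotics.IsBigO.of_bound c ?_
  filter_upwards [hc] with τ hτ
  rw [norm_mul, mul_comm] at hτ
  have h3 : 0 < ‖Dl τ‖ := norm_pos_iff.mpr (Dl_ne_zero τ)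
  simpa using le_of_mul_le_mul_right hτ h3

theorem vv_tendsto [NeZero N] (hφ : IsFam N φ) {s : ℕ} (hs : s < N) (x : X (Gamma0 N)) :
    ∃ l : ℂ, Tendsto (vv N φ s x) atImInfty (𝓝 l) :=
  exists_tendsto_of_bdd (vv_mdiff hφ s x) (vv_T hφ s x) (vv_bdd hφ hs x)

theorem sum_uu [NeZero N] (φ : X (Gamma0 N) → ℍ → ℂ) (x : X (Gamma0 N)) (τ : ℍ) :
    ∑ s ∈ Finset.range N, uu N φ s x τ = N * φ x τ := by
  unfold uu
  rw [Finset.sum_comm]
  have h1 : ∀ m ∈ Finset.range N, ∑ s ∈ Finset.range N,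
      eta N ^ (s * m) * φ ((ModularGroup.T⁻¹) ^ m • x) τ =
      if m = 0 then (N : ℂ) * φ x τ else 0 := by
    intro m hm
    rw [← Finset.sum_mul, sum_eta_pow N (Finset.mem_range.mp hm)]
    split_ifs with h0
    · subst h0; simp
    · simp
  rw [Finset.sum_congr rfl h1, Finset.sum_ite_eq' (Finset.range N) 0]
  simp [NeZero.pos N]

theorem isBigO_absq_of_vv_zero [NeZero N] (hφ : IsFam N φ) (x : X (Gamma0 N))
    (h0 : ∀ s < N, Tendsto (vv N φ s x) atImInfty (𝓝 0)) : φ x =O[atImInfty] absq := by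
  have hN : (N : ℂ) ≠ 0 := Nat.cast_ne_zero.mpr (NeZero.ne N)
  have h1 : ∀ s ∈ Finset.range N, uu N φ s x =O[atImInfty] absq := by
    intro s hs
    have h2 : vv N φ s x =O[atImInfty] absq :=
      isBigO_absq_of_zero (vv_mdiff hφ s x) (vv_T hφ s x) (h0 s (Finset.mem_range.mp hs))
    refine Asymptotics.IsBigO.trans (Asymptotics.IsBigO.of_bound 1 ?_) h2
    refine Filter.Eventually.of_forall fun τ => ?_
    rw [vv, norm_mul, norm_pow, one_mul]
    exact le_mul_of_one_le_left (norm_nonneg _) (one_le_pow₀ (one_le_norm_ei N τ))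
  have h3 := Asymptotics.IsBigO.sum h1
  have h4 : φ x = fun τ => (N : ℂ)⁻¹ * ∑ s ∈ Finset.range N, uu N φ s x τ := by
    ext τ
    rw [sum_uu, ← mul_assoc, inv_mul_cancel₀ hN, one_mul]
  rw [h4]
  have h5 := h3.const_mul_left (N : ℂ)⁻¹
  simpa only [Finset.sum_apply] using h5

end Fermat.Agent.S21.CuspDual
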