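import Fermat.Agent.S21.CuspDual.Fourier

/-! # S21 module CUSPDUAL, part 3: a combination of the columns of `Φ` which is `O(q)` at all cusps
is trivial. -/

set_option autoImplicit false

open UpperHalfPlane ModularForm CongruenceSubgroup Filter Topology
open scoped MatrixGroups ModularForm Manifold Real

namespace Fermat.Agent.S21.CuspDual

theorem vec_zero (Γ : Subgroup SL(2, ℤ)) (k : ℤ) (x : X Γ) : vec Γ k 0 x = 0 := by
  unfold vec
  exact SlashAction.zero_slash _ _

theorem vec_sum (Γ : Subgroup SL(2, ℤ)) (k : ℤ) {ι : Type*} (s : Finset ι) (f : ι → ℍ → ℂ)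
    (x : X Γ) : vec Γ k (∑ j ∈ s, f j) x = ∑ j ∈ s, vec Γ k (f j) x := by
  classical
  induction s using Finset.induction_on with
  | empty => simp [vec_zero]
  | insert a s ha ih => rw [Finset.sum_insert ha, Finset.sum_insert ha, vec_add, ih]

theorem vec_mul_levelOne' {Γ : Subgroup SL(2, ℤ)} {r : ℍ → ℂ} {a l w : ℤ} (hr : r ∈ MF ⊤ a)
    (hw : a + l = w) (f : ℍ → ℂ) (x : X Γ) : vec Γ w (r * f) x = r * vec Γ l f x := by
  subst hw
  exact vec_mul_levelOne hr l f x

variable {N : ℕ} [NeZero N] (B : FreeBasis (Gamma0 N))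

theorem F_ne_zero (j : X (Gamma0 N)) : B.F j ≠ 0 := by
  intro h
  have h1 := (B.indep UpperHalfPlane.I).ne_zero j
  apply h1
  ext x
  rw [h, vec_zero]
  rfl

theorem k_even (j : X (Gamma0 N)) : Even (B.k j) := by
  by_contra h
  rw [Int.not_even_iff_odd] at h
  have h1 := B.mem j
  rw [MF_eq_bot_of_odd (neg_one_mem_Gamma0 N) h] at h1
  exact F_ne_zero B j ((Submodule.mem_bot ℂ).mp h1)

theorem c_eq_zero (c : X (Gamma0 N) → ℂ)
    (h : ∀ x, (fun τ => ∑ j, c j * vec (Gamma0 N) (B.k j) (B.F j) x τ) =O[atImInfty] absq) :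
    c = 0 := by
  obtain ⟨M, hM⟩ : ∃ M : ℤ, ∀ j, B.k j ≤ M := by
    obtain ⟨M, hM⟩ := (Set.finite_range B.k).bddAbove
    exact ⟨M, fun j => hM ⟨j, rfl⟩⟩
  set w : ℤ := 2 * |M| + 4 with hw
  have hw1 : ∀ j, 4 ≤ w - B.k j := by
    intro j
    have h1 := hM j
    have h2 := le_abs_self M
    have h3 := abs_nonneg M
    omega
  have hw2 : ∀ j, Even (w - B.k j) := by
    intro j
    refine Even.sub ?_ (k_even B j)
    rw [hw]
    exact Even.add (even_two_mul _) (by decide)
  choose A hA hA1 using fun j => exists_MFtop_one_add (hw1 j) (hw2 j)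
  set Fc : ℍ → ℂ := ∑ j, c j • (A j * B.F j) with hFc
  have hFc_mem : Fc ∈ MF (Gamma0 N) w := by
    refine Submodule.sum_mem _ fun j _ => Submodule.smul_mem _ _ ?_
    exact mul_mem_MF' (MF_mono le_top _ (hA j)) (B.mem j) (by ring)
  have hvec : ∀ x, vec (Gamma0 N) w Fc x =
      ∑ j, c j • (A j * vec (Gamma0 N) (B.k j) (B.F j) x) := by
    intro x
    rw [hFc, vec_sum]
    refine Finset.sum_congr rfl fun j _ => ?_
    rw [vec_smul, vec_mul_levelOne' (hA j) (l := B.k j) (by ring)]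
  have hO : ∀ δ : SL(2, ℤ), (Fc ∣[w] δ) =O[atImInfty]
      (fun τ : ℍ => Real.exp (-2 * Real.pi * τ.im)) := by
    intro δ
    have h1 : Fc ∣[w] δ = vec (Gamma0 N) w Fc (QuotientGroup.mk δ⁻¹ : X (Gamma0 N)) := by
      rw [vec_mk (mem_MF_iff.mp hFc_mem).2.1, inv_inv]
    rw [h1, hvec]
    set x : X (Gamma0 N) := (QuotientGroup.mk δ⁻¹ : X (Gamma0 N))
    have h2 : (∑ j, c j • (A j * vec (Gamma0 N) (B.k j) (B.F j) x)) =
        fun τ => (∑ j, c j * vec (Gamma0 N) (B.k j) (B.F j) x τ) +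
          ∑ j, c j * ((A j τ - 1) * vec (Gamma0 N) (B.k j) (B.F j) x τ) := by
      ext τ
      rw [← Finset.sum_add_distrib, Finset.sum_apply]
      refine Finset.sum_congr rfl fun j _ => ?_
      simp only [Pi.smul_apply, Pi.mul_apply, smul_eq_mul]
      ring
    rw [h2]
    refine (h x).add ?_
    refine Asymptotics.IsBigO.fun_sum fun j _ => ?_
    refine Asymptotics.IsBigO.const_mul_left ?_ _
    have h3 := (hA1 j).mul (vec_isBoundedAtImInfty (B.mem j) x)
    rw [absq_eq]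
    simpa only [Pi.one_apply, mul_one] using h3
  obtain ⟨g, hg, hFg⟩ := div_Dl_mem hFc_mem hO
  obtain ⟨r, hr, hgr⟩ := B.gen (w - 12) g hg
  have hDl : Dl ∈ MF ⊤ 12 := CF_le_MF _ _ Dl_mem
  have hvec2 : ∀ x, vec (Gamma0 N) w Fc x =
      ∑ j, (Dl * r j) * vec (Gamma0 N) (B.k j) (B.F j) x := by
    intro x
    rw [hFg, vec_mul_levelOne' hDl (l := w - 12) (by ring), hgr, vec_sum, Finset.mul_sum]
    refine Finset.sum_congr rfl fun j _ => ?_
    rw [vec_mul_levelOne' (hr j) (l := B.k j) (by ring), mul_assoc]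
  have hkey : ∀ τ j, c j * A j τ - Dl τ * r j τ = 0 := by
    intro τ
    refine Fintype.linearIndependent_iff.mp (B.indep τ) _ ?_
    ext x
    have h1 := congrFun ((hvec x).symm.trans (hvec2 x)) τ
    simp only [Finset.sum_apply, Pi.smul_apply, Pi.mul_apply, smul_eq_mul] at h1
    simp only [Finset.sum_apply, Pi.smul_apply, smul_eq_mul, Pi.zero_apply]
    rw [← sub_eq_zero, ← Finset.sum_sub_distrib] at h1
    rw [← h1]
    refine Finset.sum_congr rfl fun j _ => ?_
    ring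
  ext j
  have hAt : Tendsto (A j) atImInfty (𝓝 1) := by
    have h1 := ((hA1 j).trans_tendsto absq_tendsto).add_const 1
    simpa using h1
  refine eq_zero_of_smul_eq_Dl_mul hAt (hr j) ?_
  ext τ
  simpa [sub_eq_zero] using hkey τ j

end Fermat.Agent.S21.CuspDual
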